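/-
Programme S33, brick A3'(a) (helper83): **the `T`-linear embedding `V ↪ (T ⊗ Ta_p J₀(N))^r`**, valid
also for `p ∣ N`.

This is the first half of `Flat83.EigenEmbed.exists_embedding` / `Flat83.S32Main.isFlatAt_of_s19`
(Cayley–Hamilton on the Hecke eigenspace of `T ⊗ T_p J₀(N)`, faithfulness, Carayol /
Boston–Lenstra–Ribet), in `T`-linear form "before coordinates", and WITHOUT the hypothesis `p ∤ N`
(which `S32Main` only uses for the S19 flatness input).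

* `exists_embedding_T` (abstract, same hypotheses as `Flat83.EigenEmbed.exists_embedding`);
* `algT hpT : Algebra ℤ_[p] T` (the `ℤ_p`-algebra structure of `T`, reducible);
* `exists_tate_embedding_T` (the literal context of the frozen S32/S33).
-/
import Mathlib
import Fermat.Agent.Flat83.S32Main

set_option autoImplicit false
set_option linter.unusedSectionVars false
set_option linter.overlappingInstances false
set_option linter.style.haveILetI false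
set_option synthInstance.maxHeartbeats 400000
set_option maxHeartbeats 1000000

open Polynomial AlgebraicCurve ModularCurve CuspForm TensorProduct

noncomputable section

namespace Fermat.Agent.S33P.Embed83

open Fermat.Agent.Flat83.EigenCH Fermat.Agent.Flat83.EigenFaith Fermat.Agent.Flat83.EigenEmbed
open Fermat.Agent.ES.ALG.RelDense9 Fermat.Agent.ES.ALG31.TraceInv12
  Fermat.Agent.ES.J.TateJZero13 Fermat.Agent.ES.J.CycloChar8
  Fermat.Agent.ES.K.HeckeTate26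

local notation "Qb" => AlgebraicClosure ℚ
local notation "GQ" => (AlgebraicClosure ℚ ≃ₐ[ℚ] AlgebraicClosure ℚ)

/-! ### the abstract form -/

section Abstract

variable {p : ℕ} [hp : Fact p.Prime]
  {R : Type*} [CommRing R]
  {M : Type*} [AddCommGroup M] [Module ℤ_[p] M]
  {G : Type*} [Group G]
  {T : Type*} [CommRing T] [Algebra ℤ_[p] T]
  [Module.Finite ℤ R] [Module.Free ℤ R] [IsReduced R]
  [Module.Finite ℤ_[p] M]
  [IsLocalRing T] [IsNoetherianRing T] [Module.Finite ℤ_[p] T] [Module.Free ℤ_[p] T]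
  {V : Type*} [AddCommGroup V] [Module T V] [Module.Free T V] [Module.Finite T V]
  [Module ℤ_[p] V] [IsScalarTower ℤ_[p] T V]

/-- **The `T`-linear embedding** `V ↪ (T ⊗ M)^r`, with image in the Hecke eigenspace. -/
theorem exists_embedding_T
    (a : R →+* Module.End ℤ_[p] M) (ρM : G →* Module.End ℤ_[p] M) (d : G →* ℤ_[p]ˣ)
    (hpT : (p : T) ∈ IsLocalRing.maximalIdeal T)
    (π : R →+* T) (hV : Module.finrank T V = 2) (ρV : G →* Module.End T V)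
    (Φ : G → ℕ → R → Prop)
    (hΦM : ∀ φ ℓ t, Φ φ ℓ t → a t = ρM φ + (ℓ : ℤ_[p]) • ρM φ⁻¹)
    (hΦd : ∀ φ ℓ t, Φ φ ℓ t → ((d φ : ℤ_[p]ˣ) : ℤ_[p]) = ℓ)
    (hΦV : ∀ φ ℓ t, Φ φ ℓ t → (ρV φ).charpoly = X ^ 2 - C (π t) * X + C (ℓ : T))
    (hdense : ∀ (n m : ℕ) (g : G), ∃ φ ℓ t, ∃ j : ℕ, Φ φ ℓ t ∧
      EndCongr (IsLocalRing.maximalIdeal T ^ n) (ρV (g⁻¹ * φ ^ j)) 1 ∧
      EndCongr (Ideal.span {(p : ℤ_[p]) ^ m}) (ρM (g⁻¹ * φ ^ j)) 1 ∧
      ((d (g⁻¹ * φ ^ j) : ℤ_[p]ˣ) : ℤ_[p]) - 1 ∈ Ideal.span {(p : ℤ_[p]) ^ m})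
    (hcomm : ∀ r g, Commute (a r) (ρM g))
    (hker : ∀ (n : ℕ) (c : Fin n → ℤ_[p]) (r : Fin n → R),
      ∑ i, c i • a (r i) = 0 → ∑ i, c i • π (r i) = 0)
    (htwo : IsUnit (2 : T))
    (hspan : Submodule.span T (Set.range ρV) = ⊤) :
    ∃ (r : ℕ) (Ψ : V →ₗ[T] (Fin r → T ⊗[ℤ_[p]] M)), Function.Injective Ψ ∧
      (∀ (g : G) (v : V) (i : Fin r), Ψ (ρV g v) i = (ρM g).baseChange T (Ψ v i)) ∧
      ∀ (v : V) (i : Fin r), Ψ v i ∈ eigen a π := by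
  classical
  -- finiteness of the eigenspace
  have hN : IsNoetherian T (T ⊗[ℤ_[p]] M) := isNoetherian_of_isNoetherianRing_of_finite T _
  have hfinX : Module.Finite T (eigen a π) := Module.IsNoetherian.finite T _
  -- the Cayley–Hamilton relation
  have hrel : ∀ g, rhoX a π ρM hcomm g + LinearMap.det (ρV g) • rhoX a π ρM hcomm g⁻¹ =
      LinearMap.trace T V (ρV g) • (1 : Module.End T (eigen a π)) := by
    intro g
    refine LinearMap.ext fun x => Subtype.ext ?_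
    have h1 := eigen_CH a ρM d hpT π hV ρV Φ hΦM hΦd hΦV hdense g x.2
    have h2 := det_eq ρM d hpT π hV ρV Φ hΦd hΦV hdense g
    rw [LinearMap.add_apply, LinearMap.smul_apply, LinearMap.smul_apply, Module.End.one_apply,
      Submodule.coe_add, Submodule.coe_smul, Submodule.coe_smul, coe_rhoX, coe_rhoX, h2,
      algebraMap_smul, ← h1]
    unfold W
    rw [LinearMap.baseChange_add, LinearMap.baseChange_smul, LinearMap.add_apply,
      LinearMap.smul_apply]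
  -- faithfulness
  have hfaith : ∀ c : T, (∀ x : eigen a π, c • x = 0) → c = 0 := by
    intro c hc
    refine eigen_faithful a π hker c fun x hx => ?_
    have := congrArg Subtype.val (hc ⟨x, hx⟩)
    exact this
  obtain ⟨r, Ψ0, hinj, heq⟩ := Fermat.Agent.Flat83.CarayolBLR.exists_injective_equivariant
    (X := eigen a π) ρV (rhoX a π ρM hcomm) hrel hV htwo hspan hfaith
  refine ⟨r, (LinearMap.pi fun i => (eigen a π).subtype.comp (LinearMap.proj i)).comp Ψ0,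
    ?_, ?_, ?_⟩
  · intro v w hvw
    apply hinj
    funext i
    apply Subtype.ext
    exact congrFun hvw i
  · intro g v i
    show ((Ψ0 (ρV g v) i : eigen a π) : T ⊗[ℤ_[p]] M) =
      (ρM g).baseChange T ((Ψ0 v i : eigen a π) : T ⊗[ℤ_[p]] M)
    rw [heq, coe_rhoX]
  · intro v i
    exact (Ψ0 v i).2

end Abstract

/-! ### the concrete form -/

section Concrete

variable {p : ℕ} {N : ℕ} [NeZero N] {S : Finset ℕ}
  {𝒪 : Type} [CommRing 𝒪] [IsDomain 𝒪] [IsDiscreteValuationRing 𝒪]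
  [IsAdicComplete (IsLocalRing.maximalIdeal 𝒪) 𝒪]
  {θ : CuspForm.heckeAlgebra N 2 (↑S : Set ℕ) →+* IsLocalRing.ResidueField 𝒪}
  {T : Type} [CommRing T] [IsLocalRing T] [IsNoetherianRing T]
  [IsAdicComplete (IsLocalRing.maximalIdeal T) T] [Algebra 𝒪 T] [IsLocalHom (algebraMap 𝒪 T)]
  [Module.Finite 𝒪 T] [Module.Free 𝒪 T]

/-- the `ℤ_p`-algebra structure of `T` (a complete local ring with `p ∈ 𝔪_T`). -/
@[reducible] def algT [hp : Fact p.Prime] (hpT : (p : T) ∈ IsLocalRing.maximalIdeal T) :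
    Algebra ℤ_[p] T :=
  (Fermat.Agent.ES.J.PadicAlg8.padicToLocal p hpT).toAlgebra

/-- `T` is finite free over `ℤ_p`. -/
theorem finite_free_algT [hp : Fact p.Prime] [CharZero 𝒪]
    (hp𝒪 : (p : 𝒪) ∈ IsLocalRing.maximalIdeal 𝒪) [Finite (IsLocalRing.ResidueField 𝒪)] :
    letI := algT (p := p) (T := T)
      (Fermat.Agent.ES.ALG31.S31Core12.natCast_mem_maximalIdeal hp𝒪)
    Module.Finite ℤ_[p] T ∧ Module.Free ℤ_[p] T := by
  letI := algT (p := p) (T := T)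
    (Fermat.Agent.ES.ALG31.S31Core12.natCast_mem_maximalIdeal hp𝒪)
  exact Fermat.Agent.Flat83.PadicFinite.finite_free p 𝒪 T
    (Fermat.Agent.ES.ALG31.S31Core12.natCast_mem_maximalIdeal hp𝒪)

/-- **The `T`-linear embedding `V ↪ (T ⊗ Ta_p J₀(N))^r`** in the context of the frozen S32 / S33
(`p` odd, `p ∈ S ⊇` primes of `N`; `p ∣ N` ALLOWED). -/
theorem exists_tate_embedding_T [hpF : Fact p.Prime]
    [Finite (IsLocalRing.ResidueField 𝒪)] [CharZero 𝒪]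
    (hp2 : p ≠ 2) (hp𝒪 : (p : 𝒪) ∈ IsLocalRing.maximalIdeal 𝒪)
    (hpS : p ∈ S) (hNS : ∀ q : ℕ, q.Prime → q ∣ N → q ∈ S)
    (H : CuspForm.HeckeGaloisRepDatum N (↑S : Set ℕ) 𝒪 θ T) :
    letI := algT (p := p) (T := T)
      (Fermat.Agent.ES.ALG31.S31Core12.natCast_mem_maximalIdeal hp𝒪)
    ∃ (r : ℕ) (Ψ : H.ρ.V →ₗ[T] (Fin r → T ⊗[ℤ_[p]] TJ p N)), Function.Injective Ψ ∧
      ∀ (g : GQ) (v : H.ρ.V) (i : Fin r),
        Ψ (H.ρ.ρ g v) i = (rhoT p N g).baseChange T (Ψ v i) := by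
  classical
  have hp : p.Prime := hpF.out
  have hpT : (p : T) ∈ IsLocalRing.maximalIdeal T :=
    Fermat.Agent.ES.ALG31.S31Core12.natCast_mem_maximalIdeal hp𝒪
  -- the `ℤ_p`-algebra structure of `T`
  letI algT' : Algebra ℤ_[p] T := algT (p := p) (T := T) hpT
  obtain ⟨hTfin, hTfree⟩ := Fermat.Agent.Flat83.PadicFinite.finite_free p 𝒪 T hpT
  haveI := hTfin
  haveI := hTfree
  -- the Hecke algebra
  have hS : ∀ q : ℕ, q.Prime → q ∣ N → q ∈ (↑S : Set ℕ) := fun q hq hqN => by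
    exact_mod_cast hNS q hq hqN
  haveI : Module.Finite ℤ (heckeAlgebra N 2 (↑S : Set ℕ)) := Fermat.Agent.S22.result N 2 _
  haveI : Module.Free ℤ (heckeAlgebra N 2 (↑S : Set ℕ)) := inferInstance
  haveI : IsReduced (heckeAlgebra N 2 (↑S : Set ℕ)) :=
    Fermat.Agent.ES.PET.ReducedFinal17.isReduced_heckeAlgebra N _ hS
  -- the Tate module
  have hfin : {y : JZero N | p • y = 0}.Finite := Fermat.Agent.ES.J.S30Final8.k1 p N
  haveI : Finite {y : JZero N // p • y = 0} := hfin.to_subtype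
  haveI : Module.Finite ℤ_[p] (TJ p N) := (finite_free hfin).1
  -- `V` as a `ℤ_p`-module
  letI : Module ℤ_[p] H.ρ.V := Module.compHom H.ρ.V (algebraMap ℤ_[p] T)
  haveI : IsScalarTower ℤ_[p] T H.ρ.V := IsScalarTower.of_algebraMap_smul fun _ _ => rfl
  -- the Hecke action on the Tate module
  let a : ↥(heckeAlgebra N 2 (↑S : Set ℕ)) →+* Module.End ℤ_[p] (TJ p N) :=
    ((evJ (p := p) (↑S : Set ℕ) hS : Bp p N (↑S : Set ℕ) →ₐ[ℤ_[p]] _) : _ →+* _).comp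
      (Algebra.TensorProduct.includeRight :
        ↥(heckeAlgebra N 2 (↑S : Set ℕ)) →ₐ[ℤ] Bp p N (↑S : Set ℕ)).toRingHom
  have ha : ∀ r, a r = evJ (p := p) (↑S : Set ℕ) hS ((1 : ℤ_[p]) ⊗ₜ[ℤ] r) := fun r => rfl
  have hne_p : ∀ ℓ : ℕ, ℓ ∉ (↑S : Set ℕ) → ℓ ≠ p := fun ℓ hℓS h => hℓS (by exact_mod_cast h ▸ hpS)
  -- the Frobenius data
  let Φ : GQ → ℕ → ↥(heckeAlgebra N 2 (↑S : Set ℕ)) → Prop := fun φ ℓ t =>
    ∃ (hℓ : ℓ.Prime) (hℓN : ¬ ℓ ∣ N) (hℓS : ℓ ∉ (↑S : Set ℕ)) (A : ValuationSubring Qb),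
      A.LiesOverPrime ℓ ∧ A.IsFrobeniusAt φ ℓ ∧ t = heckeAlgebra.T hℓ hℓN hℓS
  have hΦM : ∀ φ ℓ t, Φ φ ℓ t → a t = rhoT p N φ + (ℓ : ℤ_[p]) • rhoT p N φ⁻¹ := by
    rintro φ ℓ t ⟨hℓ, hℓN, hℓS, A, hA, hφ, rfl⟩
    have h1 := rhoT_frobenius (p := p) (N := N) hℓ hℓN (hne_p ℓ hℓS) hA hφ
    have hFF' : rhoT p N φ * rhoT p N φ⁻¹ = 1 := by rw [← map_mul, mul_inv_cancel, map_one]
    have h2 : tT p N ⟨ℓ, hℓ⟩ = rhoT p N φ + (ℓ : ℤ_[p]) • rhoT p N φ⁻¹ := by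
      have := congrArg (fun X => X * rhoT p N φ⁻¹) h1
      simp only [add_mul, sub_mul, smul_mul_assoc, mul_assoc, hFF', mul_one, one_mul,
        zero_mul] at this
      rw [sub_add_eq_add_sub, sub_eq_zero] at this
      exact this.symm
    rw [ha, evJ_T, h2]
  have hΦd : ∀ φ ℓ t, Φ φ ℓ t → ((cyclo p φ : ℤ_[p]ˣ) : ℤ_[p]) = ℓ := by
    rintro φ ℓ t ⟨hℓ, hℓN, hℓS, A, hA, hφ, rfl⟩
    exact cyclo_of_isFrobeniusAt p hℓ (hne_p ℓ hℓS) A hA hφ
  have hΦV : ∀ φ ℓ t, Φ φ ℓ t →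
      (H.ρ.ρ φ).charpoly = X ^ 2 - C (H.π t) * X + C (ℓ : T) := by
    rintro φ ℓ t ⟨hℓ, hℓN, hℓS, A, hA, hφ, rfl⟩
    exact H.charpoly_frob ℓ hℓ hℓN hℓS A hA φ hφ
  have hdense : ∀ (n m : ℕ) (g : GQ), ∃ φ ℓ t, ∃ j : ℕ, Φ φ ℓ t ∧
      EndCongr (IsLocalRing.maximalIdeal T ^ n) (H.ρ.ρ (g⁻¹ * φ ^ j)) 1 ∧
      EndCongr (Ideal.span {(p : ℤ_[p]) ^ m}) (rhoT p N (g⁻¹ * φ ^ j)) 1 ∧
      ((cyclo p (g⁻¹ * φ ^ j) : ℤ_[p]ˣ) : ℤ_[p]) - 1 ∈ Ideal.span {(p : ℤ_[p]) ^ m} := by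
    intro n m g
    obtain ⟨L₁, hL₁, h1⟩ := H.ρ.isAdicContinuous n
    obtain ⟨L₂, hL₂, h2⟩ := rhoT_continuous (p := p) (N := N) hfin m
    obtain ⟨L₃, hL₃, h3⟩ := cyclo_sub_one_mem p m
    have := hL₁
    have := hL₂
    have := hL₃
    obtain ⟨ℓ, A, φ, j, hℓ, hℓS, hA, hφ, hj⟩ :=
      Fermat.Agent.ES.GAL.ChebQbar23.exists_frobenius_inv_mul_pow_fixes (L₁ ⊔ L₂ ⊔ L₃) g S
    have hℓS' : ℓ ∉ (↑S : Set ℕ) := by simpa using hℓS
    have hℓN : ¬ ℓ ∣ N := fun hdvd => hℓS (hNS ℓ hℓ hdvd)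
    refine ⟨φ, ℓ, heckeAlgebra.T hℓ hℓN hℓS', j, ⟨hℓ, hℓN, hℓS', A, hA, hφ, rfl⟩, ?_, ?_, ?_⟩
    · intro v
      rw [Module.End.one_apply]
      exact h1 _ (fun x hx => hj x (le_sup_left (a := L₁ ⊔ L₂) (b := L₃)
        (le_sup_left (a := L₁) (b := L₂) hx))) v
    · intro v
      rw [Module.End.one_apply]
      obtain ⟨y, hy⟩ := h2 _ (fun x hx => hj x (le_sup_left (a := L₁ ⊔ L₂) (b := L₃)
        (le_sup_right (a := L₁) (b := L₂) hx))) v
      rw [hy]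
      exact Submodule.smul_mem_smul (Ideal.mem_span_singleton_self _) Submodule.mem_top
    · exact h3 _ (fun x hx => hj x (le_sup_right (a := L₁ ⊔ L₂) (b := L₃) hx))
  -- Hecke commutes with Galois
  have hcomm : ∀ r g, Commute (a r) (rhoT p N g) := fun r g =>
    (commute_rhoT_evJ (p := p) (↑S : Set ℕ) hS g ((1 : ℤ_[p]) ⊗ₜ[ℤ] r)).symm
  -- relations among the `a r` hold among the `π r`
  have hker : ∀ (n : ℕ) (c : Fin n → ℤ_[p]) (r : Fin n → ↥(heckeAlgebra N 2 (↑S : Set ℕ))),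
      ∑ i, c i • a (r i) = 0 → ∑ i, c i • H.π (r i) = 0 := by
    intro n c r hsum
    have h1 : evJ (p := p) (↑S : Set ℕ) hS (∑ i, c i ⊗ₜ[ℤ] r i) = 0 := by
      rw [map_sum, ← hsum]
      refine Finset.sum_congr rfl fun i _ => ?_
      rw [ha, ← map_smul, TensorProduct.smul_tmul', smul_eq_mul, mul_one]
    have h2 : ∑ i, c i ⊗ₜ[ℤ] r i = (0 : Bp p N (↑S : Set ℕ)) :=
      evJ_injective (p := p) (↑S : Set ℕ) hS (by rw [h1, map_zero])
    let πlin : Bp p N (↑S : Set ℕ) →ₗ[ℤ_[p]] T :=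
      LinearMap.liftBaseChange ℤ_[p] (H.π.toAddMonoidHom.toIntLinearMap)
    have h3 := congrArg πlin h2
    rw [map_sum, map_zero] at h3
    rw [← h3]
    refine Finset.sum_congr rfl fun i _ => ?_
    rw [LinearMap.liftBaseChange_tmul]
    rfl
  have htwo : IsUnit (2 : T) := Fermat.Agent.Flat83.S32Main.isUnit_two hp hp2 hpT
  have hspan : Submodule.span T (Set.range H.ρ.ρ) = ⊤ :=
    Fermat.Agent.Flat83.SpanTop.span_range_eq_top_of_absIrr H.ρ H.residual_absIrr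
  obtain ⟨r, Ψ, hinj, heq, -⟩ := exists_embedding_T a (rhoT p N)
    (cyclo p) hpT H.π H.ρ.finrank_eq H.ρ.ρ Φ hΦM hΦd hΦV hdense hcomm hker htwo hspan
  exact ⟨r, Ψ, hinj, heq⟩

end Concrete

end Fermat.Agent.S33P.Embed83
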