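/-
Programme S33, brick A3'(a), second file (helper83): in the literal binder context of the frozen
S32 / S33 (`p ∣ N` allowed),

* `span_rho_eq_top`  : the `T`-span of the image of `H.ρ.ρ` is everything (residual absolute
  irreducibility; `Flat83.SpanTop`);
* `det_eq_cyclo`     : `det (H.ρ.ρ g) = ε_p(g)` (`Flat83.EigenCH.det_eq` in the concrete context:
  Chebotarev density + `charpoly_frob`);
* `exists_tate_embedding_T_lvl` : the embedding of `EmbedT.exists_tate_embedding_T` followed by the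
  level-raising map `Lvl61.lvlMap p h : Ta_p J₀(N) → Ta_p J₀(M)` (`N ∣ M`), componentwise after
  `T ⊗_{ℤ_p} -` (`T` is flat over `ℤ_p`): a `T`-linear injective `G_ℚ`-equivariant map
  `V → (T ⊗ Ta_p J₀(M))^r`;
* `exists_tate_embedding_T_lvl4` : the case `M = Lvl61.lvl4 N`.
-/
import Mathlib
import Fermat.Agent.S33P.Embed83.EmbedT
import Fermat.Agent.S33P.Lvl61.Main

set_option autoImplicit false
set_option linter.unusedSectionVars false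
set_option linter.overlappingInstances false
set_option linter.style.haveILetI false
set_option synthInstance.maxHeartbeats 400000
set_option maxHeartbeats 1000000

open Polynomial AlgebraicCurve ModularCurve CuspForm TensorProduct

noncomputable section

namespace Fermat.Agent.S33P.Embed83

open Fermat.Agent.Flat83.EigenCH Fermat.Agent.Flat83.EigenFaith Fermat.Agent.Flat83.EigenEmbed
open Fermat.Agent.ES.ALG.RelDense9 Fermat.Agent.ES.ALG31.TraceInv12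
  Fermat.Agent.ES.J.TateJZero13 Fermat.Agent.ES.J.CycloChar8
  Fermat.Agent.ES.K.HeckeTate26

local notation "Qb" => AlgebraicClosure ℚ
local notation "GQ" => (AlgebraicClosure ℚ ≃ₐ[ℚ] AlgebraicClosure ℚ)

section Concrete

variable {p : ℕ} {N : ℕ} [NeZero N] {S : Finset ℕ}
  {𝒪 : Type} [CommRing 𝒪] [IsDomain 𝒪] [IsDiscreteValuationRing 𝒪]
  [IsAdicComplete (IsLocalRing.maximalIdeal 𝒪) 𝒪]
  {θ : CuspForm.heckeAlgebra N 2 (↑S : Set ℕ) →+* IsLocalRing.ResidueField 𝒪}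
  {T : Type} [CommRing T] [IsLocalRing T] [IsNoetherianRing T]
  [IsAdicComplete (IsLocalRing.maximalIdeal T) T] [Algebra 𝒪 T] [IsLocalHom (algebraMap 𝒪 T)]
  [Module.Finite 𝒪 T] [Module.Free 𝒪 T]

/-- the image of `ρ` spans `End_T V` (acts "fully") in the weak form used by the A-half:
the `T`-span of `ρ(G_ℚ)` is all of `End_T V`. -/
theorem span_rho_eq_top (H : CuspForm.HeckeGaloisRepDatum N (↑S : Set ℕ) 𝒪 θ T) :
    Submodule.span T (Set.range H.ρ.ρ) = ⊤ :=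
  Fermat.Agent.Flat83.SpanTop.span_range_eq_top_of_absIrr H.ρ H.residual_absIrr

/-- **`det ρ = ε_p`** in the context of the frozen S32 / S33 (`p ∈ S ⊇` primes of `N`; `p ∣ N`
allowed, `p = 2` allowed). -/
theorem det_eq_cyclo [hpF : Fact p.Prime]
    (hpT : (p : T) ∈ IsLocalRing.maximalIdeal T)
    (hpS : p ∈ S) (hNS : ∀ q : ℕ, q.Prime → q ∣ N → q ∈ S)
    (H : CuspForm.HeckeGaloisRepDatum N (↑S : Set ℕ) 𝒪 θ T) :
    letI := algT (p := p) (T := T) hpT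
    ∀ g : GQ, LinearMap.det (H.ρ.ρ g) =
      algebraMap ℤ_[p] T ((cyclo p g : ℤ_[p]ˣ) : ℤ_[p]) := by
  classical
  have hp : p.Prime := hpF.out
  letI algT' : Algebra ℤ_[p] T := algT (p := p) (T := T) hpT
  have hne_p : ∀ ℓ : ℕ, ℓ ∉ (↑S : Set ℕ) → ℓ ≠ p := fun ℓ hℓS h => hℓS (by exact_mod_cast h ▸ hpS)
  -- the Frobenius data
  let Φ : GQ → ℕ → ↥(heckeAlgebra N 2 (↑S : Set ℕ)) → Prop := fun φ ℓ t =>
    ∃ (hℓ : ℓ.Prime) (hℓN : ¬ ℓ ∣ N) (hℓS : ℓ ∉ (↑S : Set ℕ)) (A : ValuationSubring Qb),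
      A.LiesOverPrime ℓ ∧ A.IsFrobeniusAt φ ℓ ∧ t = heckeAlgebra.T hℓ hℓN hℓS
  have hΦd : ∀ φ ℓ t, Φ φ ℓ t → ((cyclo p φ : ℤ_[p]ˣ) : ℤ_[p]) = ℓ := by
    rintro φ ℓ t ⟨hℓ, hℓN, hℓS, A, hA, hφ, rfl⟩
    exact cyclo_of_isFrobeniusAt p hℓ (hne_p ℓ hℓS) A hA hφ
  have hΦV : ∀ φ ℓ t, Φ φ ℓ t →
      (H.ρ.ρ φ).charpoly = X ^ 2 - C (H.π t) * X + C (ℓ : T) := by
    rintro φ ℓ t ⟨hℓ, hℓN, hℓS, A, hA, hφ, rfl⟩
    exact H.charpoly_frob ℓ hℓ hℓN hℓS A hA φ hφ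
  -- the auxiliary (trivial) `ℤ_p`-representation
  let ρ1 : GQ →* Module.End ℤ_[p] ℤ_[p] := 1
  have hdense : ∀ (n m : ℕ) (g : GQ), ∃ φ ℓ t, ∃ j : ℕ, Φ φ ℓ t ∧
      EndCongr (IsLocalRing.maximalIdeal T ^ n) (H.ρ.ρ (g⁻¹ * φ ^ j)) 1 ∧
      EndCongr (Ideal.span {(p : ℤ_[p]) ^ m}) (ρ1 (g⁻¹ * φ ^ j)) 1 ∧
      ((cyclo p (g⁻¹ * φ ^ j) : ℤ_[p]ˣ) : ℤ_[p]) - 1 ∈ Ideal.span {(p : ℤ_[p]) ^ m} := by
    intro n m g
    obtain ⟨L₁, hL₁, h1⟩ := H.ρ.isAdicContinuous n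
    obtain ⟨L₃, hL₃, h3⟩ := cyclo_sub_one_mem p m
    have := hL₁
    have := hL₃
    obtain ⟨ℓ, A, φ, j, hℓ, hℓS, hA, hφ, hj⟩ :=
      Fermat.Agent.ES.GAL.ChebQbar23.exists_frobenius_inv_mul_pow_fixes (L₁ ⊔ L₃) g S
    have hℓS' : ℓ ∉ (↑S : Set ℕ) := by simpa using hℓS
    have hℓN : ¬ ℓ ∣ N := fun hdvd => hℓS (hNS ℓ hℓ hdvd)
    refine ⟨φ, ℓ, heckeAlgebra.T hℓ hℓN hℓS', j, ⟨hℓ, hℓN, hℓS', A, hA, hφ, rfl⟩, ?_, ?_, ?_⟩
    · intro v
      rw [Module.End.one_apply]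
      exact h1 _ (fun x hx => hj x (le_sup_left (a := L₁) (b := L₃) hx)) v
    · exact EndCongr.refl _ _
    · exact h3 _ (fun x hx => hj x (le_sup_right (a := L₁) (b := L₃) hx))
  intro g
  exact det_eq (M := ℤ_[p]) ρ1 (cyclo p) hpT H.π H.ρ.finrank_eq H.ρ.ρ Φ hΦd hΦV hdense g

/-! ### composing with the level-raising map -/

/-- **The `T`-linear embedding `V ↪ (T ⊗ Ta_p J₀(M))^r`** for any `N ∣ M`. -/
theorem exists_tate_embedding_T_lvl [hpF : Fact p.Prime]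
    [Finite (IsLocalRing.ResidueField 𝒪)] [CharZero 𝒪]
    (hp2 : p ≠ 2) (hp𝒪 : (p : 𝒪) ∈ IsLocalRing.maximalIdeal 𝒪)
    (hpS : p ∈ S) (hNS : ∀ q : ℕ, q.Prime → q ∣ N → q ∈ S)
    (H : CuspForm.HeckeGaloisRepDatum N (↑S : Set ℕ) 𝒪 θ T)
    {M : ℕ} [NeZero M] (h : N ∣ M) :
    letI := algT (p := p) (T := T)
      (Fermat.Agent.ES.ALG31.S31Core12.natCast_mem_maximalIdeal hp𝒪)
    ∃ (r : ℕ) (Ψ : H.ρ.V →ₗ[T] (Fin r → T ⊗[ℤ_[p]] TJ p M)), Function.Injective Ψ ∧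
      ∀ (g : GQ) (v : H.ρ.V) (i : Fin r),
        Ψ (H.ρ.ρ g v) i = (rhoT p M g).baseChange T (Ψ v i) := by
  classical
  have hpT : (p : T) ∈ IsLocalRing.maximalIdeal T :=
    Fermat.Agent.ES.ALG31.S31Core12.natCast_mem_maximalIdeal hp𝒪
  letI algT' : Algebra ℤ_[p] T := algT (p := p) (T := T) hpT
  obtain ⟨hTfin, hTfree⟩ := Fermat.Agent.Flat83.PadicFinite.finite_free p 𝒪 T hpT
  haveI := hTfin
  haveI := hTfree
  obtain ⟨r, Ψ0, hinj0, heq0⟩ := exists_tate_embedding_T hp2 hp𝒪 hpS hNS H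
  -- the level-raising map
  let lv : TJ p N →ₗ[ℤ_[p]] TJ p M := Fermat.Agent.S33P.Lvl61.lvlMap p h
  have hlvinj : Function.Injective lv := Fermat.Agent.S33P.Lvl61.lvlMap_injective (p := p) h
  have hlvρ : ∀ (σ : GQ) (x : TJ p N), lv (rhoT p N σ x) = rhoT p M σ (lv x) := fun σ x =>
    Fermat.Agent.S33P.Lvl61.lvlMap_rho (p := p) h σ x
  have hLinj : Function.Injective (lv.baseChange T) := by
    have := Module.Flat.lTensor_preserves_injective_linearMap (M := T) lv hlvinj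
    intro x y hxy
    apply this
    simpa [LinearMap.baseChange_eq_ltensor] using hxy
  have hLρ : ∀ (σ : GQ) (x : T ⊗[ℤ_[p]] TJ p N),
      lv.baseChange T ((rhoT p N σ).baseChange T x) =
        (rhoT p M σ).baseChange T (lv.baseChange T x) := by
    intro σ x
    have e : lv ∘ₗ rhoT p N σ = rhoT p M σ ∘ₗ lv := LinearMap.ext fun y => hlvρ σ y
    have := congrArg (fun f => (LinearMap.baseChange T f) x) e
    simpa [LinearMap.baseChange_comp] using this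
  refine ⟨r, (LinearMap.pi fun i => (lv.baseChange T) ∘ₗ (LinearMap.proj i)) ∘ₗ Ψ0, ?_, ?_⟩
  · intro v w hvw
    apply hinj0
    funext i
    apply hLinj
    exact congrFun hvw i
  · intro g v i
    show lv.baseChange T (Ψ0 (H.ρ.ρ g v) i) = (rhoT p M g).baseChange T (lv.baseChange T (Ψ0 v i))
    rw [heq0, hLρ]

/-- the case `M = lvl4 N` (`= N` if `4 ∣ N`, `= 4 N` otherwise). -/
theorem exists_tate_embedding_T_lvl4 [hpF : Fact p.Prime]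
    [Finite (IsLocalRing.ResidueField 𝒪)] [CharZero 𝒪]
    (hp2 : p ≠ 2) (hp𝒪 : (p : 𝒪) ∈ IsLocalRing.maximalIdeal 𝒪)
    (hpS : p ∈ S) (hNS : ∀ q : ℕ, q.Prime → q ∣ N → q ∈ S)
    (H : CuspForm.HeckeGaloisRepDatum N (↑S : Set ℕ) 𝒪 θ T) :
    letI := algT (p := p) (T := T)
      (Fermat.Agent.ES.ALG31.S31Core12.natCast_mem_maximalIdeal hp𝒪)
    ∃ (r : ℕ) (Ψ : H.ρ.V →ₗ[T] (Fin r → T ⊗[ℤ_[p]] TJ p (Fermat.Agent.S33P.Lvl61.lvl4 N))),
      Function.Injective Ψ ∧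
      ∀ (g : GQ) (v : H.ρ.V) (i : Fin r),
        Ψ (H.ρ.ρ g v) i =
          (rhoT p (Fermat.Agent.S33P.Lvl61.lvl4 N) g).baseChange T (Ψ v i) :=
  exists_tate_embedding_T_lvl hp2 hp𝒪 hpS hNS H (Fermat.Agent.S33P.Lvl61.dvd_lvl4 N)

end Concrete

end Fermat.Agent.S33P.Embed83
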